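import Mathlib

/-!
# S59 / TW-HECKE (helper653): cancellation for integral matrices of coprime determinants

`int_cancel` : if `a * b = G * (a' * b')` for integral matrices with `det a = det a' = m`,
`det b = det b' = n`, `m, n` coprime and nonzero, `det G = 1`, then there is an integral `W` of
determinant `1` with `b = W * b'` and `a * W = G * a'`.
-/

set_option autoImplicit false

namespace Fermat.Agent.S59.TW.H653

open Matrix

variable {k : Type*} [Fintype k] [DecidableEq k]

theorem int_cancel {a a' b b' G : Matrix k k ℤ} {m n : ℤ} (ha : a.det = m)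
    (hb' : b'.det = n) (hb : b.det = n) (hmn : IsCoprime m n) (hm : m ≠ 0)
    (hn : n ≠ 0) (e : a * b = G * (a' * b')) :
    ∃ W : Matrix k k ℤ, W.det = 1 ∧ b = W * b' ∧ a * W = G * a' := by
  -- `U = adj a * G * a'`, `V = b * adj b'`, `n U = m V`
  set U : Matrix k k ℤ := a.adjugate * G * a' with hU
  set V : Matrix k k ℤ := b * b'.adjugate with hV
  have h1 : U * b' = m • b := by
    have e' : a.adjugate * G * a' * b' = a.adjugate * (G * (a' * b')) := by
      simp only [mul_assoc]
    rw [hU, e', ← e, ← mul_assoc, adjugate_mul, ha, smul_mul_assoc, one_mul]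
  have h2 : n • U = m • V := by
    have h1' : U * b' * b'.adjugate = m • b * b'.adjugate := by rw [h1]
    rw [mul_assoc, mul_adjugate, hb', smul_mul_assoc, mul_smul_comm, mul_one] at h1'
    exact h1'
  -- entrywise divisibility
  have hdiv : ∀ i j, m ∣ U i j := by
    intro i j
    have h3 : n * U i j = m * V i j := by
      have := congrFun (congrFun h2 i) j
      simpa [Matrix.smul_apply] using this
    have h4 : m ∣ U i j * n := ⟨V i j, by rw [mul_comm, h3]⟩
    exact hmn.dvd_of_dvd_mul_right h4
  choose w hw using hdiv
  set W : Matrix k k ℤ := Matrix.of w with hWdef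
  have hUW : U = m • W := by
    ext i j
    rw [hw i j]
    simp [W, Matrix.smul_apply]
  have hVW : V = n • W := by
    have h5 : m • V = m • (n • W) := by
      rw [← h2, hUW, smul_comm]
    ext i j
    have := congrFun (congrFun h5 i) j
    simp only [Matrix.smul_apply, smul_eq_mul] at this ⊢
    exact mul_left_cancel₀ hm this
  have hbW : b = W * b' := by
    have h6 : V * b' = n • b := by
      rw [hV, mul_assoc, adjugate_mul, hb', mul_smul_comm, mul_one]
    rw [hVW, smul_mul_assoc] at h6
    ext i j
    have := congrFun (congrFun h6 i) j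
    simp only [Matrix.smul_apply, smul_eq_mul] at this
    exact (mul_left_cancel₀ hn this).symm
  have hdetW : W.det = 1 := by
    have h7 : b.det = W.det * b'.det := by rw [hbW, det_mul]
    rw [hb, hb'] at h7
    have h8 : W.det * n = 1 * n := by rw [one_mul]; exact h7.symm
    exact mul_right_cancel₀ hn h8
  refine ⟨W, hdetW, hbW, ?_⟩
  have h9 : a * U = m • (G * a') := by
    rw [hU, ← mul_assoc, ← mul_assoc, mul_adjugate, ha, smul_mul_assoc, one_mul, smul_mul_assoc]
  rw [hUW, mul_smul_comm] at h9
  ext i j
  have := congrFun (congrFun h9 i) j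
  simp only [Matrix.smul_apply, smul_eq_mul] at this
  exact mul_left_cancel₀ hm this

end Fermat.Agent.S59.TW.H653
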