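import Mathlib
import Fermat.Agent.S59.TW.H653.Systems
import Fermat.Agent.S59.TW.H653.Comm.IntMat

/-!
# S59 / TW-HECKE (helper653): commutation of the transfers of two normalised coset systems

* `IsIntRep M n X` : `X ∈ GL(2, ℝ)` is an integral matrix of determinant `n`, `≡ [[1,*],[0,*]] mod M`;
* `cancel_GL` : cancellation for products of integral representatives of coprime determinants;
* `comm_of_le` : two coset systems `σ`, `σ'` of `Γ₀(M)` with integral normalised representatives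
  of coprime determinants such that every `σ i * σ' j` lies in some `Γ₀(M) * σ' j' * σ i'` have
  commuting transfers on `Hom(K, A)`, for every `K` with `Γ₁(M) ≤ K ≤ Γ₀(M)`;
* `le_twist` : the hypothesis of `comm_of_le` is insensitive to twisting.
-/

set_option autoImplicit false

namespace Fermat.Agent.S59.TW.H653

open CongruenceSubgroup Matrix.SpecialLinearGroup ModularCurve.Period ModularForm
open Fermat.Agent.S29.H642 Fermat.Agent.S41.H761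
open P2MW.S_ModularForm_heckeT_slash_eq_self_of_mem_Gamma0.ModularForm.HeckeSlashInvariance
open scoped MatrixGroups

/-- `X ∈ GL(2, ℝ)` is an integral matrix `m` of determinant `n` with `M ∣ m 1 0` and
`m 0 0 ≡ 1 mod M`. -/
def IsIntRep (M : ℕ) (n : ℤ) (X : GL (Fin 2) ℝ) : Prop :=
  ∃ m : Matrix (Fin 2) (Fin 2) ℤ, (M : ℤ) ∣ m 1 0 ∧ (M : ℤ) ∣ m 0 0 - 1 ∧ m.det = n ∧
    ∀ i j, (X : Matrix (Fin 2) (Fin 2) ℝ) i j = ((m i j : ℤ) : ℝ)

variable {M : ℕ}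

theorem IsIntRep.isNormRep {n : ℤ} {X : GL (Fin 2) ℝ} (h : IsIntRep M n X) : IsNormRep M X := by
  obtain ⟨m, h1, h2, -, h4⟩ := h
  refine ⟨m 0 0, m 0 1, m 1 0, m 1 1, h1, h2, ?_⟩
  ext i j
  fin_cases i <;> fin_cases j <;> simp [h4]

theorem isIntRep_heckeMatrix {q : ℕ} (hq : q ≠ 0) (j : ℕ) : IsIntRep M q (heckeMatrix q j) := by
  refine ⟨!![1, j; 0, q], by simp, by simp, by simp [Matrix.det_fin_two_of], ?_⟩
  intro i k
  rw [val_heckeMatrix hq]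
  fin_cases i <;> fin_cases k <;> simp

theorem isNormRep_mul {X Y : GL (Fin 2) ℝ} (hX : IsNormRep M X) (hY : IsNormRep M Y) :
    IsNormRep M (X * Y) := by
  obtain ⟨a, b, c, d, ⟨k1, hk1⟩, ⟨k2, hk2⟩, hXe⟩ := hX
  obtain ⟨a', b', c', d', ⟨k3, hk3⟩, ⟨k4, hk4⟩, hYe⟩ := hY
  refine ⟨a * a' + b * c', a * b' + b * d', c * a' + d * c', c * b' + d * d',
    ⟨k1 * a' + d * k3, by rw [hk1, hk3]; ring⟩,
    ⟨k2 * a' + k4 + b * k3, by
      have ha : a = 1 + M * k2 := by linarith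
      have ha' : a' = 1 + M * k4 := by linarith
      rw [hk3, ha, ha']; ring⟩, ?_⟩
  ext i j
  fin_cases i <;> fin_cases j <;>
    simp [Matrix.mul_apply, Fin.sum_univ_two, hXe, hYe]

/-- From an identity of integral matrices to an identity in `GL(2, ℝ)`. -/
theorem gl_eq_mul_of_int {X Y Z : GL (Fin 2) ℝ} {x y z : Matrix (Fin 2) (Fin 2) ℤ}
    (hX : ∀ i j, (X : Matrix (Fin 2) (Fin 2) ℝ) i j = ((x i j : ℤ) : ℝ))
    (hY : ∀ i j, (Y : Matrix (Fin 2) (Fin 2) ℝ) i j = ((y i j : ℤ) : ℝ))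
    (hZ : ∀ i j, (Z : Matrix (Fin 2) (Fin 2) ℝ) i j = ((z i j : ℤ) : ℝ))
    (e : x = y * z) : X = Y * Z := by
  have key : ∀ i j, (X : Matrix (Fin 2) (Fin 2) ℝ) i j =
      ((Y * Z : GL (Fin 2) ℝ) : Matrix (Fin 2) (Fin 2) ℝ) i j := by
    intro i j
    rw [coe_mul_apply, hX, hY, hY, hZ, hZ, e, Matrix.mul_apply, Fin.sum_univ_two]
    push_cast
    ring
  exact gl_ext (key 0 0) (key 0 1) (key 1 0) (key 1 1)

/-- From an identity in `GL(2, ℝ)` to an identity of integral matrices. -/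
theorem int_eq_mul_of_gl {X Y Z W : GL (Fin 2) ℝ} {x y z w : Matrix (Fin 2) (Fin 2) ℤ}
    (hX : ∀ i j, (X : Matrix (Fin 2) (Fin 2) ℝ) i j = ((x i j : ℤ) : ℝ))
    (hY : ∀ i j, (Y : Matrix (Fin 2) (Fin 2) ℝ) i j = ((y i j : ℤ) : ℝ))
    (hZ : ∀ i j, (Z : Matrix (Fin 2) (Fin 2) ℝ) i j = ((z i j : ℤ) : ℝ))
    (hW : ∀ i j, (W : Matrix (Fin 2) (Fin 2) ℝ) i j = ((w i j : ℤ) : ℝ))
    (e : X * Y = Z * W) : x * y = z * w := by
  ext i j
  have h1 := congrArg (fun U : GL (Fin 2) ℝ => (U : Matrix (Fin 2) (Fin 2) ℝ) i j) e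
  simp only [coe_mul_apply, hX, hY, hZ, hW] at h1
  rw [Matrix.mul_apply, Matrix.mul_apply, Fin.sum_univ_two, Fin.sum_univ_two]
  exact_mod_cast h1

theorem coe_mul_int {X Y : GL (Fin 2) ℝ} {x y : Matrix (Fin 2) (Fin 2) ℤ}
    (hX : ∀ i j, (X : Matrix (Fin 2) (Fin 2) ℝ) i j = ((x i j : ℤ) : ℝ))
    (hY : ∀ i j, (Y : Matrix (Fin 2) (Fin 2) ℝ) i j = ((y i j : ℤ) : ℝ)) (i j : Fin 2) :
    ((X * Y : GL (Fin 2) ℝ) : Matrix (Fin 2) (Fin 2) ℝ) i j = (((x * y) i j : ℤ) : ℝ) := by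
  rw [coe_mul_apply, hX, hX, hY, hY, Matrix.mul_apply, Fin.sum_univ_two]
  push_cast
  ring

/-- **Cancellation.**  If `A * B = g * (A' * B')` with integral `A, A'` of determinant `m` and
`B, B'` of determinant `n`, `m` and `n` coprime, then `B = γ * B'` and `A * γ = g * A'` for some
`γ ∈ SL(2, ℤ)`. -/
theorem cancel_GL {m n : ℤ} {A A' B B' : GL (Fin 2) ℝ} (hA : IsIntRep M m A)
    (hA' : IsIntRep M m A') (hB : IsIntRep M n B) (hB' : IsIntRep M n B')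
    (hmn : IsCoprime m n) (hm : m ≠ 0) (hn : n ≠ 0) {g : SL(2, ℤ)}
    (e : A * B = mapGL ℝ g * (A' * B')) :
    ∃ γ : SL(2, ℤ), B = mapGL ℝ γ * B' ∧ A * mapGL ℝ γ = mapGL ℝ g * A' := by
  obtain ⟨a, -, -, ha, hAe⟩ := hA
  obtain ⟨a', -, -, -, hAe'⟩ := hA'
  obtain ⟨b, -, -, hb, hBe⟩ := hB
  obtain ⟨b', -, -, hb', hBe'⟩ := hB'
  have hg : ∀ i j, ((mapGL ℝ g : GL (Fin 2) ℝ) : Matrix (Fin 2) (Fin 2) ℝ) i j =
      ((((g : Matrix (Fin 2) (Fin 2) ℤ)) i j : ℤ) : ℝ) := fun i j => coe_mapGL_apply g i j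
  have e1 : a * b = (g : Matrix (Fin 2) (Fin 2) ℤ) * (a' * b') := by
    refine int_eq_mul_of_gl hAe hBe hg (coe_mul_int hAe' hBe') e
  obtain ⟨W, hW1, hW2, hW3⟩ := int_cancel ha hb' hb hmn hm hn e1
  let γ : SL(2, ℤ) := ⟨W, hW1⟩
  have hγ : ∀ i j, ((mapGL ℝ γ : GL (Fin 2) ℝ) : Matrix (Fin 2) (Fin 2) ℝ) i j =
      ((W i j : ℤ) : ℝ) := fun i j => coe_mapGL_apply γ i j
  refine ⟨γ, gl_eq_mul_of_int hBe hγ hBe' hW2, ?_⟩
  have key : ∀ i j, ((A * mapGL ℝ γ : GL (Fin 2) ℝ) : Matrix (Fin 2) (Fin 2) ℝ) i j =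
      ((mapGL ℝ g * A' : GL (Fin 2) ℝ) : Matrix (Fin 2) (Fin 2) ℝ) i j := by
    intro i j
    rw [coe_mul_int hAe hγ, coe_mul_int hg hAe', hW3]
  exact gl_ext (key 0 0) (key 0 1) (key 1 0) (key 1 1)

section Comm

variable {K : Subgroup SL(2, ℤ)} {I J : Type*} {σ : I → GL (Fin 2) ℝ} {σ' : J → GL (Fin 2) ℝ}

/-- Distinctness of the cosets of the product of two integral normalised coset systems of
coprime determinants. -/
theorem prod_S2 (h₀ : IsCosetSystem (ιN M) (ιN M) σ) (h₀' : IsCosetSystem (ιN M) (ιN M) σ')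
    {m n : ℤ} (hσ : ∀ i, IsIntRep M m (σ i)) (hσ' : ∀ j, IsIntRep M n (σ' j))
    (hmn : IsCoprime m n) (hm : m ≠ 0) (hn : n ≠ 0) (i i' : I) (j j' : J) (g : Gamma0 M)
    (e : σ i * σ' j = ιN M g * (σ i' * σ' j')) : i = i' ∧ j = j' := by
  obtain ⟨γ, h1, h2⟩ := cancel_GL (hσ i) (hσ i') (hσ' j) (hσ' j') hmn hm hn e
  -- `γ ∈ Γ₀(M)`
  have h3 : σ' j * mapGL ℝ (1 : SL(2, ℤ)) = mapGL ℝ γ * σ' j' := by
    rw [map_one, mul_one]
    exact h1
  obtain ⟨h4, -⟩ := normRep_coc_aux (hσ' j).isNormRep (hσ' j').isNormRep (one_mem _) h3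
  have hj : j = j' := h₀'.eq_of_mul j j' ⟨γ, mem_Gamma0_of_dvd h4⟩ h1
  subst hj
  have h5 : mapGL ℝ γ = 1 := by
    have : (1 : GL (Fin 2) ℝ) * σ' j = mapGL ℝ γ * σ' j := by rw [one_mul]; exact h1
    exact (mul_right_cancel this).symm
  rw [h5, mul_one] at h2
  exact ⟨h₀.eq_of_mul i i' g h2, rfl⟩

/-- **Commutation.**  Two coset systems of `Γ₀(M)` with integral normalised representatives of
coprime determinants such that every product `σ i * σ' j` lies in some coset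
`Γ₀(M) * σ' j' * σ i'` have commuting transfers on `Hom(K, A)`, `Γ₁(M) ≤ K ≤ Γ₀(M)`. -/
theorem comm_of_le [Fintype I] [Fintype J] {A : Type*} [AddCommGroup A] (hK : IsMid M K)
    (h₀ : IsCosetSystem (ιN M) (ιN M) σ) (h₀' : IsCosetSystem (ιN M) (ιN M) σ')
    {m n : ℤ} (hσ : ∀ i, IsIntRep M m (σ i)) (hσ' : ∀ j, IsIntRep M n (σ' j))
    (hmn : IsCoprime m n) (hm : m ≠ 0) (hn : n ≠ 0)
    (hle : ∀ i j, ∃ (j' : J) (i' : I) (g : Gamma0 M), σ i * σ' j = ιN M g * (σ' j' * σ i'))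
    (φ : Additive K →+ A) :
    (system_of_gamma0 hK h₀' (fun j => (hσ' j).isNormRep)).transfer
        ((system_of_gamma0 hK h₀ (fun i => (hσ i).isNormRep)).transfer φ) =
      (system_of_gamma0 hK h₀ (fun i => (hσ i).isNormRep)).transfer
        ((system_of_gamma0 hK h₀' (fun j => (hσ' j).isNormRep)).transfer φ) := by
  set hH := system_of_gamma0 hK h₀ (fun i => (hσ i).isNormRep)
  set hH' := system_of_gamma0 hK h₀' (fun j => (hσ' j).isNormRep)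
  have hprod : IsCosetSystem (ιK K) (ιK K) (fun x : I × J => σ x.1 * σ' x.2) :=
    IsCosetSystem.prod hH hH' (fun i i' j j' g e =>
      prod_S2 h₀ h₀' hσ hσ' hmn hm hn i i' j j' (inclK hK g) e)
  have hprod' : IsCosetSystem (ιK K) (ιK K) (fun x : J × I => σ' x.1 * σ x.2) :=
    IsCosetSystem.prod hH' hH (fun j j' i i' g e =>
      prod_S2 h₀' h₀ hσ' hσ hmn.symm hn hm j j' i i' (inclK hK g) e)
  rw [IsCosetSystem.transfer_comp hH hH' hprod φ, IsCosetSystem.transfer_comp hH' hH hprod' φ]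
  refine IsCosetSystem.transfer_eq_of_le_of_card hprod hprod' ?_ ?_ φ
  · rw [Fintype.card_prod, Fintype.card_prod, mul_comm]
  · rintro ⟨i, j⟩
    obtain ⟨j', i', g, e⟩ := hle i j
    -- `g ∈ K`
    have e' : (σ i * σ' j) * ιN M 1 = mapGL ℝ (g : SL(2, ℤ)) * (σ' j' * σ i') := by
      rw [map_one, mul_one]
      exact e
    obtain ⟨hg', hd⟩ := normRep_coc (isNormRep_mul (hσ i).isNormRep (hσ' j).isNormRep)
      (isNormRep_mul (hσ' j').isNormRep (hσ i').isNormRep) e'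
    have hgK : (g : SL(2, ℤ)) ∈ K := by
      apply hK.mem_of_dUnit_eq_one
      rw [← map_one (dUnit M), ← hd]
    exact ⟨(j', i'), ⟨_, hgK⟩, e⟩

end Comm

/-! ## Twisting -/

section TwistLE

variable {𝒢 Γ : Type*} [Group 𝒢] [Group Γ] {I J : Type*}
variable {ι : Γ →* 𝒢} {ρ : I → 𝒢} {ρ' : J → 𝒢}

/-- The hypothesis `hle` of `comm_of_le` for two coset systems implies the one for their
twists. -/
theorem le_twist (h : IsCosetSystem ι ι ρ) (h' : IsCosetSystem ι ι ρ') (τ : I → Γ) (τ' : J → Γ)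
    (hle : ∀ i j, ∃ (j' : J) (i' : I) (g : Γ), ρ i * ρ' j = ι g * (ρ' j' * ρ i')) (i : I)
    (j : J) :
    ∃ (j' : J) (i' : I) (g : Γ),
      (ι (τ i) * ρ i) * (ι (τ' j) * ρ' j) = ι g * ((ι (τ' j') * ρ' j') * (ι (τ i') * ρ i')) := by
  -- `ρ i * τ' j = c₁ * ρ a`
  have s1 := h.spec i (τ' j)
  obtain ⟨b, c, g₁, e1⟩ := hle (h.act i (τ' j)) j
  -- `ρ' b * (τ c)⁻¹ = c₂ * ρ' b'`
  have s2 := h'.spec b (τ c)⁻¹
  refine ⟨h'.act b (τ c)⁻¹, c,
    τ i * h.coc i (τ' j) * g₁ * h'.coc b (τ c)⁻¹ * (τ' (h'.act b (τ c)⁻¹))⁻¹, ?_⟩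
  calc (ι (τ i) * ρ i) * (ι (τ' j) * ρ' j)
      = ι (τ i) * (ρ i * ι (τ' j)) * ρ' j := by simp only [mul_assoc]
    _ = ι (τ i) * ι (h.coc i (τ' j)) * (ρ (h.act i (τ' j)) * ρ' j) := by
        rw [s1]; simp only [mul_assoc]
    _ = ι (τ i) * ι (h.coc i (τ' j)) * ι g₁ * (ρ' b * ι (τ c)⁻¹) * (ι (τ c) * ρ c) := by
        rw [e1]; simp only [map_inv, mul_assoc, inv_mul_cancel_left]
    _ = _ := by
        rw [s2]
        simp only [map_mul, map_inv, mul_assoc, inv_mul_cancel_left]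

end TwistLE

end Fermat.Agent.S59.TW.H653
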