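import Mathlib
import Fermat.Agent.S59.TW.H653.Comm.Abstract

/-!
# S59 / TW-HECKE (helper653): products of Hecke representatives at coprime levels

Explicit identities `r * r' = t * (r'' * r''')` in `GL(2, ℝ)` between products of the standard
representatives `[[1, j], [0, ℓ]]`, `[[ℓ, 0], [0, 1]]` for coprime `ℓ`, `ℓ'`, with `t` a translation
`[[1, t], [0, 1]]`.
-/

set_option autoImplicit false

namespace Fermat.Agent.S59.TW.H653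

open CongruenceSubgroup Matrix.SpecialLinearGroup ModularCurve.Period ModularForm
open Fermat.Agent.S29.H642 Fermat.Agent.S41.H761
open P2MW.S_ModularForm_heckeT_slash_eq_self_of_mem_Gamma0.ModularForm.HeckeSlashInvariance
open scoped MatrixGroups

variable (M : ℕ)

/-- The translation `[[1, t], [0, 1]] ∈ Γ₀(M)`. -/
def transl (t : ℤ) : Gamma0 M := mkGamma0 M 1 t 0 1 (by ring) (dvd_zero _)

theorem coe_transl (t : ℤ) :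
    (ιN M (transl M t) : Matrix (Fin 2) (Fin 2) ℝ) = !![(1 : ℝ), (t : ℝ); 0, 1] := by
  obtain ⟨e00, e01, e10, e11⟩ := mkGamma0_apply M 1 t 0 1 (by ring) (dvd_zero _)
  ext i j
  fin_cases i <;> fin_cases j <;>
    simp only [coe_ιN_apply, transl, e00, e01, e10, e11, Fin.zero_eta, Fin.mk_one,
      Matrix.of_apply, Matrix.cons_val', Matrix.cons_val_zero, Matrix.cons_val_one,
      Matrix.cons_val_fin_one] <;> simp

variable {M} {ℓ ℓ' : ℕ}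

theorem heckeMatrix_mul_heckeMatrix_core (hℓ : ℓ ≠ 0) (hℓ' : ℓ' ≠ 0) (i j i' j' : ℕ) (t : ℤ)
    (h : (j : ℤ) + i * ℓ' = i' + ℓ * j' + ℓ * ℓ' * t) :
    heckeMatrix ℓ i * heckeMatrix ℓ' j =
      ιN M (transl M t) * (heckeMatrix ℓ' j' * heckeMatrix ℓ i') := by
  have h3 : (j : ℝ) + i * ℓ' = i' + ℓ * j' + ℓ * ℓ' * t := by exact_mod_cast h
  apply gl_ext <;>
    simp only [coe_mul_apply, coe_transl, val_heckeMatrix hℓ, val_heckeMatrix hℓ',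
      Matrix.of_apply, Matrix.cons_val', Matrix.cons_val_zero, Matrix.cons_val_one,
      Matrix.cons_val_fin_one]
  · ring
  · linear_combination h3
  · ring
  · ring

/-- `[[1,i],[0,ℓ]] * [[1,j],[0,ℓ']] = [[1,t],[0,1]] * [[1,j'],[0,ℓ']] * [[1,i'],[0,ℓ]]`. -/
theorem heckeMatrix_mul_heckeMatrix (hℓ : ℓ ≠ 0) (hℓ' : ℓ' ≠ 0) (i j : ℕ) :
    ∃ (j' i' : ℕ) (g : Gamma0 M), i' < ℓ ∧ j' < ℓ' ∧
      heckeMatrix ℓ i * heckeMatrix ℓ' j = ιN M g * (heckeMatrix ℓ' j' * heckeMatrix ℓ i') := by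
  set n := j + i * ℓ' with hn
  refine ⟨(n / ℓ) % ℓ', n % ℓ, transl M ((n / ℓ / ℓ' : ℕ) : ℤ),
    Nat.mod_lt _ (Nat.pos_of_ne_zero hℓ), Nat.mod_lt _ (Nat.pos_of_ne_zero hℓ'), ?_⟩
  apply heckeMatrix_mul_heckeMatrix_core hℓ hℓ'
  have h1 : n % ℓ + ℓ * (n / ℓ) = n := Nat.mod_add_div n ℓ
  have h2 : (n / ℓ) % ℓ' + ℓ' * (n / ℓ / ℓ') = n / ℓ := Nat.mod_add_div (n / ℓ) ℓ'
  generalize n / ℓ / ℓ' = c at h2 ⊢
  generalize (n / ℓ) % ℓ' = b at h2 ⊢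
  generalize n / ℓ = a at h1 h2 ⊢
  generalize n % ℓ = r at h1 ⊢
  have e : (n : ℤ) = j + i * ℓ' := by rw [hn]; push_cast; ring
  have h1' : (r : ℤ) + ℓ * a = n := by exact_mod_cast h1
  have h2' : (b : ℤ) + ℓ' * c = a := by exact_mod_cast h2
  rw [← e, ← h1', ← h2']
  ring

theorem heckeDiag_mul_heckeMatrix_core (hℓ : ℓ ≠ 0) (hℓ' : ℓ' ≠ 0) (j j' : ℕ) (t : ℤ)
    (h : (ℓ : ℤ) * j = j' + ℓ' * t) :
    heckeDiagMatrix ℓ * heckeMatrix ℓ' j =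
      ιN M (transl M t) * (heckeMatrix ℓ' j' * heckeDiagMatrix ℓ) := by
  have h3 : (ℓ : ℝ) * j = j' + ℓ' * t := by exact_mod_cast h
  apply gl_ext <;>
    simp only [coe_mul_apply, coe_transl, val_heckeMatrix hℓ', val_heckeDiagMatrix hℓ,
      Matrix.of_apply, Matrix.cons_val', Matrix.cons_val_zero, Matrix.cons_val_one,
      Matrix.cons_val_fin_one]
  · ring
  · linear_combination h3
  · ring
  · ring

/-- `[[ℓ,0],[0,1]] * [[1,j],[0,ℓ']] = [[1,t],[0,1]] * [[1,j'],[0,ℓ']] * [[ℓ,0],[0,1]]`. -/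
theorem heckeDiag_mul_heckeMatrix (hℓ : ℓ ≠ 0) (hℓ' : ℓ' ≠ 0) (j : ℕ) :
    ∃ (j' : ℕ) (g : Gamma0 M), j' < ℓ' ∧
      heckeDiagMatrix ℓ * heckeMatrix ℓ' j =
        ιN M g * (heckeMatrix ℓ' j' * heckeDiagMatrix ℓ) := by
  refine ⟨(ℓ * j) % ℓ', transl M ((ℓ * j / ℓ' : ℕ) : ℤ),
    Nat.mod_lt _ (Nat.pos_of_ne_zero hℓ'), ?_⟩
  apply heckeDiag_mul_heckeMatrix_core hℓ hℓ'
  have h1 : (ℓ * j) % ℓ' + ℓ' * (ℓ * j / ℓ') = ℓ * j := Nat.mod_add_div _ _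
  generalize ℓ * j / ℓ' = c at h1 ⊢
  generalize (ℓ * j) % ℓ' = b at h1 ⊢
  have h1' : (b : ℤ) + ℓ' * c = ℓ * j := by exact_mod_cast h1
  rw [← h1']

theorem heckeMatrix_mul_heckeDiag_core (hℓ : ℓ ≠ 0) (hℓ' : ℓ' ≠ 0) (i i' : ℕ) (t : ℤ)
    (h : (i : ℤ) = ℓ' * i' + t * ℓ) :
    heckeMatrix ℓ i * heckeDiagMatrix ℓ' =
      ιN M (transl M t) * (heckeDiagMatrix ℓ' * heckeMatrix ℓ i') := by
  have h3 : (i : ℝ) = ℓ' * i' + t * ℓ := by exact_mod_cast h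
  apply gl_ext <;>
    simp only [coe_mul_apply, coe_transl, val_heckeMatrix hℓ, val_heckeDiagMatrix hℓ',
      Matrix.of_apply, Matrix.cons_val', Matrix.cons_val_zero, Matrix.cons_val_one,
      Matrix.cons_val_fin_one]
  · ring
  · linear_combination h3
  · ring
  · ring

/-- `[[1,i],[0,ℓ]] * [[ℓ',0],[0,1]] = [[1,t],[0,1]] * [[ℓ',0],[0,1]] * [[1,i'],[0,ℓ]]`. -/
theorem heckeMatrix_mul_heckeDiag (hℓ : ℓ ≠ 0) (hℓ' : ℓ' ≠ 0) (hcop : Nat.Coprime ℓ' ℓ)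
    (i : ℕ) :
    ∃ (i' : ℕ) (g : Gamma0 M), i' < ℓ ∧
      heckeMatrix ℓ i * heckeDiagMatrix ℓ' =
        ιN M g * (heckeDiagMatrix ℓ' * heckeMatrix ℓ i') := by
  -- `u ℓ' + v ℓ = 1`
  have hb : ((Nat.gcd ℓ' ℓ : ℕ) : ℤ) = ℓ' * Int.gcdA ℓ' ℓ + ℓ * Int.gcdB ℓ' ℓ :=
    Int.gcd_eq_gcd_ab ℓ' ℓ
  rw [Nat.Coprime] at hcop
  rw [hcop] at hb
  push_cast at hb
  generalize Int.gcdA ℓ' ℓ = u at hb
  generalize Int.gcdB ℓ' ℓ = v at hb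
  -- `i' = (i u) mod ℓ`
  have hℓpos : (0 : ℤ) < ℓ := by exact_mod_cast Nat.pos_of_ne_zero hℓ
  have hi'0 : 0 ≤ (i * u) % (ℓ : ℤ) := Int.emod_nonneg _ hℓpos.ne'
  have hi'1 : (i * u) % (ℓ : ℤ) < ℓ := Int.emod_lt_of_pos _ hℓpos
  have h1 : (i * u) % (ℓ : ℤ) + ℓ * ((i * u) / ℓ) = i * u := Int.emod_add_mul_ediv _ _
  generalize (i * u) / (ℓ : ℤ) = k at h1
  generalize (i * u) % (ℓ : ℤ) = i' at h1 hi'0 hi'1
  have hc : ((i'.toNat : ℕ) : ℤ) = i' := Int.toNat_of_nonneg hi'0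
  refine ⟨i'.toNat, transl M (i * v + ℓ' * k), ?_, ?_⟩
  · have : (i'.toNat : ℤ) < ℓ := by rw [hc]; exact hi'1
    exact_mod_cast this
  apply heckeMatrix_mul_heckeDiag_core hℓ hℓ'
  rw [hc]
  linear_combination (i : ℤ) * hb - (ℓ' : ℤ) * h1

/-- `[[ℓ,0],[0,1]] * [[ℓ',0],[0,1]] = [[ℓ',0],[0,1]] * [[ℓ,0],[0,1]]`. -/
theorem heckeDiag_mul_heckeDiag (hℓ : ℓ ≠ 0) (hℓ' : ℓ' ≠ 0) :
    heckeDiagMatrix ℓ * heckeDiagMatrix ℓ' =
      ιN M 1 * (heckeDiagMatrix ℓ' * heckeDiagMatrix ℓ) := by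
  rw [map_one, one_mul]
  apply gl_ext <;>
    simp only [coe_mul_apply, val_heckeDiagMatrix hℓ, val_heckeDiagMatrix hℓ',
      Matrix.of_apply, Matrix.cons_val', Matrix.cons_val_zero, Matrix.cons_val_one,
      Matrix.cons_val_fin_one] <;>
    ring

end Fermat.Agent.S59.TW.H653
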