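import Mathlib
import Fermat.Agent.S59.TW.H653.Comm.Explicit

/-!
# S59 / TW-HECKE (helper653): the Hecke operators on `Hom(K, A)` commute (`Γ₁(M) ≤ K ≤ Γ₀(M)`)

* `TK_comm`    : `T_ℓ T_ℓ' = T_ℓ' T_ℓ` (`ℓ, ℓ' ∤ M` primes);
* `TK_UK_comm` : `U_q T_ℓ = T_ℓ U_q` (`ℓ ∤ M`, `q ∣ M` primes);
* `UK_comm`    : `U_q U_q' = U_q' U_q` (`q, q' ∣ M` primes);
* `heckeTransfer_UK_comm` : the case `K = Γ₀(M)` in the vocabulary of S29/S41.
-/

set_option autoImplicit false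

namespace Fermat.Agent.S59.TW.H653

open CongruenceSubgroup Matrix.SpecialLinearGroup ModularCurve.Period ModularForm
open Fermat.Agent.S29.H642 Fermat.Agent.S41.H761
open P2MW.S_ModularForm_heckeT_slash_eq_self_of_mem_Gamma0.ModularForm.HeckeSlashInvariance
open scoped MatrixGroups

variable {M : ℕ} {K : Subgroup SL(2, ℤ)} {A : Type*} [AddCommGroup A]

/-! ## Integrality of the representatives -/

theorem isIntRep_repsU (q : ℕ) [Fact q.Prime] (j : ZMod q) : IsIntRep M q (repsU q j) :=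
  isIntRep_heckeMatrix (Fact.out : q.Prime).ne_zero _

theorem isIntRep_repsT {ℓ : ℕ} [Fact ℓ.Prime] (hℓ : ¬ ℓ ∣ M) (x : OnePoint (ZMod ℓ)) :
    IsIntRep M ℓ (repsT M ℓ x) := by
  have hp : ℓ ≠ 0 := (Fact.out : ℓ.Prime).ne_zero
  induction x using OnePoint.rec with
  | coe j => exact isIntRep_heckeMatrix hp _
  | infty =>
    have hcop : Nat.Coprime ℓ M := (Nat.Prime.coprime_iff_not_dvd Fact.out).mpr hℓ
    obtain ⟨s00, s01, s10, s11, hs⟩ := sigma_spec hcop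
    refine ⟨!![Int.gcdA ℓ M * ℓ, -Int.gcdB ℓ M; M * ℓ, ℓ], ?_, ?_, ?_, ?_⟩
    · simp
    · refine ⟨-Int.gcdB ℓ M, ?_⟩
      simp only [Matrix.of_apply, Matrix.cons_val', Matrix.cons_val_zero,
        Matrix.cons_val_fin_one]
      linear_combination hs
    · rw [Matrix.det_fin_two_of]
      linear_combination (ℓ : ℤ) * hs
    · intro i j
      rw [repsT_infty]
      fin_cases i <;> fin_cases j <;>
        simp only [coe_mul_apply, coe_ιN_apply, val_heckeDiagMatrix hp, Matrix.of_apply,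
          Matrix.cons_val', Matrix.cons_val_zero, Matrix.cons_val_one, Matrix.cons_val_fin_one,
          Fin.zero_eta, Fin.mk_one, s00, s01, s10, s11] <;>
        push_cast <;> ring

/-! ## The products of the untwisted representatives -/

theorem heckeRep_coe_natCast {ℓ : ℕ} [NeZero ℓ] {i : ℕ} (hi : i < ℓ) :
    heckeRep ℓ (((i : ZMod ℓ)) : OnePoint (ZMod ℓ)) = heckeMatrix ℓ i := by
  rw [heckeRep_coe, ZMod.val_cast_of_lt hi]

theorem repsU_natCast {q : ℕ} [NeZero q] {i : ℕ} (hi : i < q) :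
    repsU q (i : ZMod q) = heckeMatrix q i := by
  rw [repsU, ZMod.val_cast_of_lt hi]

/-- Products of untwisted representatives of `T_ℓ` and `T_ℓ'`, `ℓ ≠ ℓ'`. -/
theorem heckeRep_le {ℓ ℓ' : ℕ} [Fact ℓ.Prime] [Fact ℓ'.Prime] (hne : ℓ ≠ ℓ')
    (x : OnePoint (ZMod ℓ)) (y : OnePoint (ZMod ℓ')) :
    ∃ (y' : OnePoint (ZMod ℓ')) (x' : OnePoint (ZMod ℓ)) (g : Gamma0 M),
      heckeRep ℓ x * heckeRep ℓ' y = ιN M g * (heckeRep ℓ' y' * heckeRep ℓ x') := by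
  have hp : ℓ ≠ 0 := (Fact.out : ℓ.Prime).ne_zero
  have hp' : ℓ' ≠ 0 := (Fact.out : ℓ'.Prime).ne_zero
  induction x using OnePoint.rec with
  | infty =>
    induction y using OnePoint.rec with
    | infty => exact ⟨OnePoint.infty, OnePoint.infty, 1, heckeDiag_mul_heckeDiag hp hp'⟩
    | coe j =>
      obtain ⟨j', g, hj', e⟩ := heckeDiag_mul_heckeMatrix (M := M) hp hp' j.val
      refine ⟨((j' : ZMod ℓ') : OnePoint (ZMod ℓ')), OnePoint.infty, g, ?_⟩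
      rw [heckeRep_coe_natCast hj']
      exact e
  | coe i =>
    induction y using OnePoint.rec with
    | infty =>
      have hcop : Nat.Coprime ℓ' ℓ :=
        (Nat.coprime_primes Fact.out Fact.out).mpr (Ne.symm hne)
      obtain ⟨i', g, hi', e⟩ := heckeMatrix_mul_heckeDiag (M := M) hp hp' hcop i.val
      refine ⟨OnePoint.infty, ((i' : ZMod ℓ) : OnePoint (ZMod ℓ)), g, ?_⟩
      rw [heckeRep_coe_natCast hi']
      exact e
    | coe j =>
      obtain ⟨j', i', g, hi', hj', e⟩ := heckeMatrix_mul_heckeMatrix (M := M) hp hp' i.val j.val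
      refine ⟨((j' : ZMod ℓ') : OnePoint (ZMod ℓ')), ((i' : ZMod ℓ) : OnePoint (ZMod ℓ)), g, ?_⟩
      rw [heckeRep_coe_natCast hi', heckeRep_coe_natCast hj']
      exact e

/-- Products of untwisted representatives of `T_ℓ` and `U_q`. -/
theorem heckeRep_repsU_le {ℓ q : ℕ} [Fact ℓ.Prime] [Fact q.Prime]
    (x : OnePoint (ZMod ℓ)) (j : ZMod q) :
    ∃ (j' : ZMod q) (x' : OnePoint (ZMod ℓ)) (g : Gamma0 M),
      heckeRep ℓ x * repsU q j = ιN M g * (repsU q j' * heckeRep ℓ x') := by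
  have hp : ℓ ≠ 0 := (Fact.out : ℓ.Prime).ne_zero
  have hq : q ≠ 0 := (Fact.out : q.Prime).ne_zero
  induction x using OnePoint.rec with
  | infty =>
    obtain ⟨j', g, hj', e⟩ := heckeDiag_mul_heckeMatrix (M := M) hp hq j.val
    refine ⟨(j' : ZMod q), OnePoint.infty, g, ?_⟩
    rw [repsU_natCast hj']
    exact e
  | coe i =>
    obtain ⟨j', i', g, hi', hj', e⟩ := heckeMatrix_mul_heckeMatrix (M := M) hp hq i.val j.val
    refine ⟨(j' : ZMod q), ((i' : ZMod ℓ) : OnePoint (ZMod ℓ)), g, ?_⟩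
    rw [heckeRep_coe_natCast hi', repsU_natCast hj']
    exact e

/-- Products of representatives of `U_q` and `U_q'`. -/
theorem repsU_le {q q' : ℕ} [Fact q.Prime] [Fact q'.Prime] (i : ZMod q) (j : ZMod q') :
    ∃ (j' : ZMod q') (i' : ZMod q) (g : Gamma0 M),
      repsU q i * repsU q' j = ιN M g * (repsU q' j' * repsU q i') := by
  have hq : q ≠ 0 := (Fact.out : q.Prime).ne_zero
  have hq' : q' ≠ 0 := (Fact.out : q'.Prime).ne_zero
  obtain ⟨j', i', g, hi', hj', e⟩ := heckeMatrix_mul_heckeMatrix (M := M) hq hq' i.val j.val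
  refine ⟨(j' : ZMod q'), (i' : ZMod q), g, ?_⟩
  rw [repsU_natCast hi', repsU_natCast hj']
  exact e

/-! ## The products of the twisted representatives -/

theorem repsT_le {ℓ ℓ' : ℕ} [Fact ℓ.Prime] [Fact ℓ'.Prime] (hℓ : ¬ ℓ ∣ M) (hℓ' : ¬ ℓ' ∣ M)
    (hne : ℓ ≠ ℓ') (x : OnePoint (ZMod ℓ)) (y : OnePoint (ZMod ℓ')) :
    ∃ (y' : OnePoint (ZMod ℓ')) (x' : OnePoint (ZMod ℓ)) (g : Gamma0 M),
      repsT M ℓ x * repsT M ℓ' y = ιN M g * (repsT M ℓ' y' * repsT M ℓ x') := by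
  rw [repsT_eq_twist M ℓ, repsT_eq_twist M ℓ']
  exact le_twist (heckeSystem hℓ) (heckeSystem hℓ') (tauT M ℓ) (tauT M ℓ')
    (heckeRep_le hne) x y

theorem repsT_repsU_le {ℓ q : ℕ} [Fact ℓ.Prime] [Fact q.Prime] (hℓ : ¬ ℓ ∣ M) (hq : q ∣ M)
    (x : OnePoint (ZMod ℓ)) (j : ZMod q) :
    ∃ (j' : ZMod q) (x' : OnePoint (ZMod ℓ)) (g : Gamma0 M),
      repsT M ℓ x * repsU q j = ιN M g * (repsU q j' * repsT M ℓ x') := by
  rw [repsT_eq_twist M ℓ]
  obtain ⟨j', x', g, e⟩ := le_twist (heckeSystem hℓ) (repsU_system0 hq) (tauT M ℓ)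
    (fun _ => 1) heckeRep_repsU_le x j
  refine ⟨j', x', g, ?_⟩
  simpa only [map_one, one_mul] using e

/-! ## Commutation -/

/-- **`T_ℓ` and `T_ℓ'` commute on `Hom(K, A)`.** -/
theorem TK_comm (hK : IsMid M K) {ℓ ℓ' : ℕ} [Fact ℓ.Prime] [Fact ℓ'.Prime] (hℓ : ¬ ℓ ∣ M)
    (hℓ' : ¬ ℓ' ∣ M) (φ : Additive K →+ A) :
    TK M K ℓ' (TK M K ℓ φ) = TK M K ℓ (TK M K ℓ' φ) := by
  by_cases hne : ℓ = ℓ'
  · subst hne
    rfl
  have hcop : IsCoprime (ℓ : ℤ) (ℓ' : ℤ) :=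
    Nat.isCoprime_iff_coprime.mpr ((Nat.coprime_primes Fact.out Fact.out).mpr hne)
  have hm : (ℓ : ℤ) ≠ 0 := by exact_mod_cast (Fact.out : ℓ.Prime).ne_zero
  have hn : (ℓ' : ℤ) ≠ 0 := by exact_mod_cast (Fact.out : ℓ'.Prime).ne_zero
  simp only [TK_eq hK hℓ, TK_eq hK hℓ']
  exact comm_of_le hK (repsT_system0 hℓ) (repsT_system0 hℓ') (isIntRep_repsT hℓ)
    (isIntRep_repsT hℓ') hcop hm hn (repsT_le hℓ hℓ' hne) φ

/-- **`T_ℓ` and `U_q` commute on `Hom(K, A)`.** -/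
theorem TK_UK_comm (hK : IsMid M K) {ℓ q : ℕ} [Fact ℓ.Prime] [Fact q.Prime] (hℓ : ¬ ℓ ∣ M)
    (hq : q ∣ M) (φ : Additive K →+ A) :
    UK K q (TK M K ℓ φ) = TK M K ℓ (UK K q φ) := by
  have hne : ℓ ≠ q := by
    rintro rfl
    exact hℓ hq
  have hcop : IsCoprime (ℓ : ℤ) (q : ℤ) :=
    Nat.isCoprime_iff_coprime.mpr ((Nat.coprime_primes Fact.out Fact.out).mpr hne)
  have hm : (ℓ : ℤ) ≠ 0 := by exact_mod_cast (Fact.out : ℓ.Prime).ne_zero
  have hn : (q : ℤ) ≠ 0 := by exact_mod_cast (Fact.out : q.Prime).ne_zero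
  simp only [TK_eq hK hℓ, UK_eq hK hq]
  exact comm_of_le hK (repsT_system0 hℓ) (repsU_system0 hq) (isIntRep_repsT hℓ)
    (isIntRep_repsU q) hcop hm hn (repsT_repsU_le hℓ hq) φ

/-- **`U_q` and `U_q'` commute on `Hom(K, A)`.** -/
theorem UK_comm (hK : IsMid M K) {q q' : ℕ} [Fact q.Prime] [Fact q'.Prime] (hq : q ∣ M)
    (hq' : q' ∣ M) (φ : Additive K →+ A) :
    UK K q' (UK K q φ) = UK K q (UK K q' φ) := by
  by_cases hne : q = q'
  · subst hne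
    rfl
  have hcop : IsCoprime (q : ℤ) (q' : ℤ) :=
    Nat.isCoprime_iff_coprime.mpr ((Nat.coprime_primes Fact.out Fact.out).mpr hne)
  have hm : (q : ℤ) ≠ 0 := by exact_mod_cast (Fact.out : q.Prime).ne_zero
  have hn : (q' : ℤ) ≠ 0 := by exact_mod_cast (Fact.out : q'.Prime).ne_zero
  simp only [UK_eq hK hq, UK_eq hK hq']
  exact comm_of_le hK (repsU_system0 hq) (repsU_system0 hq') (isIntRep_repsU q)
    (isIntRep_repsU q') hcop hm hn repsU_le φ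

/-! ## The case `K = Γ₀(M)` in the vocabulary of S29/S41 -/

/-- `U_q` commutes with the Hecke transfer `T_ℓ` of S29/S41 on `Hom(Γ₀(M), A)`. -/
theorem heckeTransfer_UK_comm {ℓ q : ℕ} [Fact ℓ.Prime] [Fact q.Prime] (hℓ : ¬ ℓ ∣ M)
    (hq : q ∣ M) (φ : Additive (Gamma0 M) →+ A) :
    UK (Gamma0 M) q (heckeTransfer hℓ φ) = heckeTransfer hℓ (UK (Gamma0 M) q φ) := by
  rw [← TK_Gamma0 hℓ, ← TK_Gamma0 hℓ]
  exact TK_UK_comm (isMid_Gamma0 M) hℓ hq φ

end Fermat.Agent.S59.TW.H653
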